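import Mathlib

set_option autoImplicit false
set_option linter.style.haveILetI false

namespace Fermat.Agent.Patching

open IsLocalRing RingTheory.Sequence Pointwise

section General

variable {R : Type} [CommRing R]

/-- the inclusion `R⟦X_1..X_n⟧ → R⟦X_0..X_n⟧` shifting variables -/
noncomputable def shiftHom (n : ℕ) (R : Type) [CommRing R] :
    MvPowerSeries (Fin n) R →+* MvPowerSeries (Fin (n + 1)) R :=
  ((MvPowerSeries.finSuccEquiv R n).symm.toRingHom).comp PowerSeries.C

theorem shiftHom_apply (n : ℕ) (f : MvPowerSeries (Fin n) R) :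
    shiftHom n R f = (MvPowerSeries.finSuccEquiv R n).symm (PowerSeries.C f) := rfl

theorem finSuccEquiv_shiftHom (n : ℕ) (f : MvPowerSeries (Fin n) R) :
    MvPowerSeries.finSuccEquiv R n (shiftHom n R f) = PowerSeries.C f := by
  rw [shiftHom_apply, AlgEquiv.apply_symm_apply]

theorem shiftHom_X (n : ℕ) (i : Fin n) :
    shiftHom n R (MvPowerSeries.X i) = MvPowerSeries.X i.succ := by
  apply (MvPowerSeries.finSuccEquiv R n).injective
  rw [finSuccEquiv_shiftHom, MvPowerSeries.finSuccEquiv_X_succ]

theorem shiftHom_C (n : ℕ) (c : R) :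
    shiftHom n R (MvPowerSeries.C c) = MvPowerSeries.C c := by
  apply (MvPowerSeries.finSuccEquiv R n).injective
  rw [finSuccEquiv_shiftHom, MvPowerSeries.finSuccEquiv_C]

/-- the projection setting `X_0 = 0` -/
noncomputable def dropHom (n : ℕ) (R : Type) [CommRing R] :
    MvPowerSeries (Fin (n + 1)) R →+* MvPowerSeries (Fin n) R :=
  (PowerSeries.constantCoeff).comp (MvPowerSeries.finSuccEquiv R n).toRingHom

theorem dropHom_apply (n : ℕ) (f : MvPowerSeries (Fin (n + 1)) R) :
    dropHom n R f = PowerSeries.constantCoeff (MvPowerSeries.finSuccEquiv R n f) := rfl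

theorem dropHom_shiftHom (n : ℕ) (f : MvPowerSeries (Fin n) R) :
    dropHom n R (shiftHom n R f) = f := by
  rw [dropHom_apply, finSuccEquiv_shiftHom, PowerSeries.constantCoeff_C]

theorem dropHom_surjective (n : ℕ) : Function.Surjective (dropHom n R) :=
  fun f => ⟨shiftHom n R f, dropHom_shiftHom n f⟩

theorem dropHom_X_zero (n : ℕ) : dropHom n R (MvPowerSeries.X 0) = 0 := by
  rw [dropHom_apply, MvPowerSeries.finSuccEquiv_X_zero, PowerSeries.constantCoeff_X]

theorem dropHom_X_succ (n : ℕ) (i : Fin n) :
    dropHom n R (MvPowerSeries.X i.succ) = MvPowerSeries.X i := by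
  rw [dropHom_apply, MvPowerSeries.finSuccEquiv_X_succ, PowerSeries.constantCoeff_C]

theorem dropHom_C (n : ℕ) (c : R) : dropHom n R (MvPowerSeries.C c) = MvPowerSeries.C c := by
  rw [dropHom_apply, MvPowerSeries.finSuccEquiv_C, PowerSeries.constantCoeff_C]

/-- kernel of `dropHom` is generated by `X_0` -/
theorem exists_of_dropHom_eq_zero (n : ℕ) (f : MvPowerSeries (Fin (n + 1)) R)
    (hf : dropHom n R f = 0) : ∃ g, f = MvPowerSeries.X 0 * g := by
  rw [dropHom_apply] at hf
  obtain ⟨g, hg⟩ := PowerSeries.X_dvd_iff.mpr hf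
  refine ⟨(MvPowerSeries.finSuccEquiv R n).symm g, ?_⟩
  apply (MvPowerSeries.finSuccEquiv R n).injective
  rw [map_mul, MvPowerSeries.finSuccEquiv_X_zero, AlgEquiv.apply_symm_apply, hg]

theorem constantCoeff_dropHom (n : ℕ) (f : MvPowerSeries (Fin (n + 1)) R) :
    MvPowerSeries.constantCoeff (dropHom n R f) = MvPowerSeries.constantCoeff f := by
  rw [dropHom_apply]
  have := MvPowerSeries.coeff_coeff_finSuccEquiv (R := R) f (k := 0) (x := 0)
  rw [Finsupp.cons_zero_zero] at this
  simpa using this

/-- power series with zero constant coefficient lie in the ideal of the variables -/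
theorem mem_span_X_of_constantCoeff_eq_zero (n : ℕ) : ∀ (f : MvPowerSeries (Fin n) R),
    MvPowerSeries.constantCoeff f = 0 →
      f ∈ Ideal.span (Set.range (fun i : Fin n => (MvPowerSeries.X i : MvPowerSeries (Fin n) R))) := by
  induction n with
  | zero =>
    intro f hf
    have : f = 0 := by
      ext m
      have hm : m = 0 := Subsingleton.elim _ _
      rw [hm]
      simpa using hf
    rw [this]; exact zero_mem _
  | succ n ih =>
    intro f hf
    have h1 : dropHom n R (f - shiftHom n R (dropHom n R f)) = 0 := by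
      rw [map_sub, dropHom_shiftHom, sub_self]
    obtain ⟨g, hg⟩ := exists_of_dropHom_eq_zero n _ h1
    have h2 := ih (dropHom n R f) (by rw [constantCoeff_dropHom, hf])
    have h3 : shiftHom n R (dropHom n R f) ∈ Ideal.span
        (Set.range (fun i : Fin (n + 1) => (MvPowerSeries.X i : MvPowerSeries (Fin (n + 1)) R))) := by
      have := Ideal.mem_map_of_mem (shiftHom n R) h2
      rw [Ideal.map_span] at this
      refine Ideal.span_mono ?_ this
      rintro _ ⟨_, ⟨i, rfl⟩, rfl⟩
      exact ⟨i.succ, (shiftHom_X n i).symm⟩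
    have h4 : f = shiftHom n R (dropHom n R f) + MvPowerSeries.X 0 * g := by
      rw [← hg]; ring
    rw [h4]
    exact add_mem h3 (Ideal.mul_mem_right _ _ (Ideal.subset_span ⟨0, rfl⟩))

end General

section Domain

variable {R : Type} [CommRing R] [IsDomain R]

/-- `X_0, ..., X_{n-1}, c` is a weakly regular sequence on `R⟦X_0..X_{n-1}⟧`. -/
theorem isWeaklyRegular_X_C (c : R) (hc : c ≠ 0) (n : ℕ) :
    IsWeaklyRegular (MvPowerSeries (Fin n) R)
      (List.ofFn (fun i : Fin n => (MvPowerSeries.X i : MvPowerSeries (Fin n) R)) ++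
        [MvPowerSeries.C c]) := by
  induction n with
  | zero =>
    rw [List.ofFn_zero, List.nil_append, isWeaklyRegular_singleton_iff]
    intro a b hab
    have hc' : (MvPowerSeries.C c : MvPowerSeries (Fin 0) R) ≠ 0 := by
      intro h
      apply hc
      have := congrArg MvPowerSeries.constantCoeff h
      simpa using this
    exact mul_left_cancel₀ hc' hab
  | succ n ih =>
    rw [List.ofFn_succ, List.cons_append, isWeaklyRegular_cons_iff]
    refine ⟨?_, ?_⟩
    · intro a b hab
      have hX : (MvPowerSeries.X 0 : MvPowerSeries (Fin (n + 1)) R) ≠ 0 := by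
        intro h
        have := congrArg (MvPowerSeries.finSuccEquiv R n) h
        rw [MvPowerSeries.finSuccEquiv_X_zero, map_zero] at this
        exact PowerSeries.X_ne_zero this
      exact mul_left_cancel₀ hX hab
    · -- quotient by X_0
      let f : MvPowerSeries (Fin (n + 1)) R →+ MvPowerSeries (Fin n) R :=
        (dropHom n R).toAddMonoidHom
      have hker : ((MvPowerSeries.X 0 : MvPowerSeries (Fin (n + 1)) R) •
          (⊤ : Submodule (MvPowerSeries (Fin (n + 1)) R)
          (MvPowerSeries (Fin (n + 1)) R))).toAddSubgroup = f.ker := by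
        ext x
        rw [Submodule.mem_toAddSubgroup, AddMonoidHom.mem_ker,
          Submodule.mem_smul_pointwise_iff_exists]
        constructor
        · rintro ⟨y, -, rfl⟩
          show dropHom n R (MvPowerSeries.X 0 • y) = 0
          rw [smul_eq_mul, map_mul, dropHom_X_zero, zero_mul]
        · intro hx
          obtain ⟨g, hg⟩ := exists_of_dropHom_eq_zero n x hx
          exact ⟨g, trivial, hg.symm⟩
      let e : QuotSMulTop (MvPowerSeries.X 0 : MvPowerSeries (Fin (n + 1)) R)
          (MvPowerSeries (Fin (n + 1)) R) ≃+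
          MvPowerSeries (Fin n) R :=
        (QuotientAddGroup.quotientAddEquivOfEq hker).trans
          (QuotientAddGroup.quotientKerEquivOfSurjective f (dropHom_surjective n))
      have he : ∀ x : MvPowerSeries (Fin (n + 1)) R,
          e (Submodule.Quotient.mk x) = dropHom n R x := fun x => rfl
      refine (AddEquiv.isWeaklyRegular_congr (e := e) (bs :=
        List.ofFn (fun i : Fin n => (MvPowerSeries.X i : MvPowerSeries (Fin n) R)) ++
        [MvPowerSeries.C c]) ?_).mpr ih
      have key : ∀ (a : MvPowerSeries (Fin (n + 1)) R) (b : MvPowerSeries (Fin n) R),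
          dropHom n R a = b → ∀ x : QuotSMulTop (MvPowerSeries.X 0 : MvPowerSeries (Fin (n + 1)) R)
            (MvPowerSeries (Fin (n + 1)) R), e (a • x) = b • e x := by
        intro a b hab x
        obtain ⟨x, rfl⟩ := Submodule.Quotient.mk_surjective _ x
        rw [← Submodule.Quotient.mk_smul, he, he, smul_eq_mul, map_mul, hab, smul_eq_mul]
      refine List.rel_append ?_ ?_
      · rw [List.forall₂_iff_get]
        refine ⟨by simp, fun i h1 h2 => ?_⟩
        simp only [List.get_ofFn]
        refine key _ _ ?_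
        exact dropHom_X_succ n _
      · exact List.Forall₂.cons (key _ _ (dropHom_C n c)) List.Forall₂.nil

end Domain

section DVR

variable {R : Type} [CommRing R] [IsLocalRing R]

theorem mem_maximalIdeal_iff (n : ℕ) (f : MvPowerSeries (Fin n) R) :
    f ∈ maximalIdeal (MvPowerSeries (Fin n) R) ↔
      MvPowerSeries.constantCoeff f ∈ maximalIdeal R := by
  rw [mem_maximalIdeal, mem_nonunits_iff, mem_maximalIdeal, mem_nonunits_iff,
    MvPowerSeries.isUnit_iff_constantCoeff]

theorem maximalIdeal_mvPowerSeries (n : ℕ) (c : R) (hc : maximalIdeal R = Ideal.span {c}) :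
    maximalIdeal (MvPowerSeries (Fin n) R) =
      Ideal.span (Set.range (Fin.cons (MvPowerSeries.C c)
        (fun i : Fin n => (MvPowerSeries.X i : MvPowerSeries (Fin n) R)) :
          Fin (n + 1) → MvPowerSeries (Fin n) R)) := by
  apply le_antisymm
  · intro f hf
    rw [mem_maximalIdeal_iff, hc, Ideal.mem_span_singleton] at hf
    obtain ⟨d, hd⟩ := hf
    have h1 : f = MvPowerSeries.C c * MvPowerSeries.C d +
        (f - MvPowerSeries.C (MvPowerSeries.constantCoeff f)) := by
      rw [hd, map_mul]; ring
    rw [h1]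
    refine add_mem (Ideal.mul_mem_right _ _ (Ideal.subset_span ⟨0, rfl⟩)) ?_
    have h2 := mem_span_X_of_constantCoeff_eq_zero n
      (f - MvPowerSeries.C (MvPowerSeries.constantCoeff f)) (by simp)
    refine Ideal.span_mono ?_ h2
    rintro _ ⟨i, rfl⟩
    exact ⟨i.succ, by rw [Fin.cons_succ]⟩
  · rw [Ideal.span_le]
    rintro _ ⟨i, rfl⟩
    rw [SetLike.mem_coe, mem_maximalIdeal_iff]
    refine Fin.cases ?_ (fun j => ?_) i
    · rw [Fin.cons_zero, MvPowerSeries.constantCoeff_C, hc]
      exact Ideal.mem_span_singleton_self c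
    · rw [Fin.cons_succ, MvPowerSeries.constantCoeff_X]
      exact zero_mem _

end DVR

end Fermat.Agent.Patching
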