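import Mathlib

set_option autoImplicit false
set_option linter.style.haveILetI false

namespace Fermat.Agent.Patching

open IsLocalRing RingTheory.Sequence CategoryTheory Abelian Pointwise

universe u

/-- There is an `M`-regular element in `𝔪 \ 𝔪²` as soon as there is an `M`-regular one in `𝔪`. -/
theorem exists_mem_notMem_sq_isSMulRegular {R : Type u} [CommRing R] [IsLocalRing R]
    [IsNoetherianRing R] {M : Type u} [AddCommGroup M] [Module R M] [Module.Finite R M]
    [Nontrivial M] {r : R} (hr : r ∈ maximalIdeal R) (hreg : IsSMulRegular M r) :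
    ∃ x ∈ maximalIdeal R, x ∉ (maximalIdeal R) ^ 2 ∧ IsSMulRegular M x := by
  by_contra hcon
  push Not at hcon
  have hfin : (insert ((maximalIdeal R) ^ 2) (associatedPrimes R M)).Finite :=
    (associatedPrimes.finite R M).insert _
  have hsub : ((maximalIdeal R : Ideal R) : Set R) ⊆
      ⋃ i ∈ (insert ((maximalIdeal R) ^ 2) (associatedPrimes R M)), ((id i : Ideal R) : Set R) := by
    intro x hx
    by_cases hx2 : x ∈ (maximalIdeal R) ^ 2
    · exact Set.mem_biUnion (Set.mem_insert _ _) hx2
    · have hnr : ¬ IsSMulRegular M x := hcon x hx hx2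
      have hmem : x ∈ ⋃ p ∈ associatedPrimes R M, ((p : Ideal R) : Set R) := by
        rw [biUnion_associatedPrimes_eq_compl_regular R M]
        exact hnr
      obtain ⟨p, hp, hxp⟩ := Set.mem_iUnion₂.mp hmem
      exact Set.mem_biUnion (Set.mem_insert_of_mem _ hp) hxp
  rw [Ideal.subset_union_prime_finite hfin ((maximalIdeal R) ^ 2) ((maximalIdeal R) ^ 2)] at hsub
  · obtain ⟨i, hi, hle⟩ := hsub
    rcases hi with rfl | hi
    · -- 𝔪 ≤ 𝔪²
      have hbot : maximalIdeal R = ⊥ := by
        apply Submodule.eq_bot_of_le_smul_of_le_jacobson_bot (maximalIdeal R) _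
          (IsNoetherian.noetherian _)
        · simpa [pow_two] using hle
        · exact maximalIdeal_le_jacobson _
      rw [hbot, Ideal.mem_bot] at hr
      subst hr
      obtain ⟨m, hm⟩ := exists_ne (0 : M)
      exact hm (hreg (by simp))
    · have hrm : r ∈ ⋃ p ∈ associatedPrimes R M, ((p : Ideal R) : Set R) :=
        Set.mem_biUnion hi (hle hr)
      rw [biUnion_associatedPrimes_eq_compl_regular R M] at hrm
      exact hrm hreg
  · intro i hi h1 _
    rcases hi with rfl | hi
    · exact absurd rfl h1
    · exact hi.1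

/-- If `𝔪` is generated by `n+1` elements and `x ∈ 𝔪 \ 𝔪²` then the maximal ideal of
`R/(x)` is generated by `n` elements. -/
theorem exists_generators_quotient {R : Type u} [CommRing R] [IsLocalRing R] {n : ℕ}
    (v : Fin (n + 1) → R) (hv : maximalIdeal R = Ideal.span (Set.range v)) {x : R}
    (hx : x ∈ maximalIdeal R) (hx2 : x ∉ (maximalIdeal R) ^ 2)
    [IsLocalRing (R ⧸ Ideal.span {x})] :
    ∃ w : Fin n → R ⧸ Ideal.span {x},
      maximalIdeal (R ⧸ Ideal.span {x}) = Ideal.span (Set.range w) := by
  have hx' := hx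
  rw [hv, Ideal.mem_span_range_iff_exists_fun] at hx'
  obtain ⟨c, hc⟩ := hx'
  obtain ⟨i, hi⟩ : ∃ i, IsUnit (c i) := by
    by_contra hcon
    push Not at hcon
    apply hx2
    rw [← hc, pow_two]
    refine Ideal.sum_mem _ fun i _ => Ideal.mul_mem_mul ((mem_maximalIdeal _).mpr (hcon i)) ?_
    rw [hv]; exact Ideal.subset_span ⟨i, rfl⟩
  refine ⟨fun j => Ideal.Quotient.mk _ (v (i.succAbove j)), ?_⟩
  have hsurj : Function.Surjective (Ideal.Quotient.mk (Ideal.span {x})) :=
    Ideal.Quotient.mk_surjective
  have hmap : maximalIdeal (R ⧸ Ideal.span {x}) =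
      (maximalIdeal R).map (Ideal.Quotient.mk (Ideal.span {x})) := by
    have hle : RingHom.ker (Ideal.Quotient.mk (Ideal.span {x})) ≤ maximalIdeal R := by
      rw [Ideal.mk_ker]; exact (Ideal.span_singleton_le_iff_mem _).mpr hx
    have hmax : ((maximalIdeal R).map (Ideal.Quotient.mk (Ideal.span {x}))).IsMaximal :=
      Ideal.IsMaximal.map_of_surjective_of_ker_le hsurj hle
    exact (IsLocalRing.eq_maximalIdeal hmax).symm
  rw [hmap, hv, Ideal.map_span, ← Set.range_comp]
  apply le_antisymm
  · rw [Ideal.span_le]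
    rintro _ ⟨j, rfl⟩
    by_cases hj : j = i
    · subst hj
      obtain ⟨u, hu⟩ := hi
      have hxz : Ideal.Quotient.mk (Ideal.span {x}) x = 0 :=
        Ideal.Quotient.eq_zero_iff_mem.mpr (Ideal.mem_span_singleton_self x)
      have hkey : Ideal.Quotient.mk (Ideal.span {x}) (v j) =
          - Ideal.Quotient.mk (Ideal.span {x}) (↑u⁻¹) *
            ∑ k : Fin n, Ideal.Quotient.mk (Ideal.span {x}) (c (j.succAbove k)) *
              Ideal.Quotient.mk (Ideal.span {x}) (v (j.succAbove k)) := by
        have h1 : Ideal.Quotient.mk (Ideal.span {x}) (∑ i, c i * v i) = 0 := by rw [hc, hxz]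
        rw [Fin.sum_univ_succAbove _ j, map_add, map_sum, ← hu] at h1
        simp only [map_mul] at h1
        have h2 : Ideal.Quotient.mk (Ideal.span {x}) (↑u⁻¹ : R) *
            Ideal.Quotient.mk (Ideal.span {x}) (u : R) = 1 := by
          rw [← map_mul, Units.inv_mul, map_one]
        linear_combination (Ideal.Quotient.mk (Ideal.span {x}) (↑u⁻¹ : R)) * h1 -
          Ideal.Quotient.mk (Ideal.span {x}) (v j) * h2
      simp only [Function.comp_apply]
      rw [hkey]
      refine Ideal.mul_mem_left _ _ (Ideal.sum_mem _ fun k _ => Ideal.mul_mem_left _ _ ?_)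
      exact Ideal.subset_span ⟨k, rfl⟩
    · obtain ⟨k, rfl⟩ := Fin.exists_succAbove_eq hj
      exact Ideal.subset_span ⟨k, rfl⟩
  · rw [Ideal.span_le]
    rintro _ ⟨j, rfl⟩
    exact Ideal.subset_span ⟨_, rfl⟩

/-- Depth drop (via Rees' theorem). -/
theorem exists_regular_quotSMulTop {R : Type u} [CommRing R] [IsLocalRing R] [IsNoetherianRing R]
    {M : Type u} [AddCommGroup M] [Module R M] [Module.Finite R M] [Nontrivial M] {n : ℕ}
    (rs : List R) (hlen : rs.length = n + 1) (hmem : ∀ r ∈ rs, r ∈ maximalIdeal R)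
    (hreg : IsRegular M rs) {x : R} (hx : x ∈ maximalIdeal R) (hxreg : IsSMulRegular M x) :
    ∃ rs' : List R, rs'.length = n ∧ (∀ r ∈ rs', r ∈ maximalIdeal R) ∧
      IsRegular (QuotSMulTop x M) rs' := by
  have hlt : (maximalIdeal R) • (⊤ : Submodule R M) < ⊤ := by
    refine lt_top_iff_ne_top.mpr ?_
    exact (Submodule.top_ne_ideal_smul_of_le_jacobson_annihilator (maximalIdeal_le_jacobson _)).symm
  haveI := nontrivial_quotSMulTop_of_mem_maximalIdeal (L := M) hx
  have hlt' : (maximalIdeal R) • (⊤ : Submodule R (QuotSMulTop x M)) < ⊤ := by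
    refine lt_top_iff_ne_top.mpr ?_
    exact (Submodule.top_ne_ideal_smul_of_le_jacobson_annihilator (maximalIdeal_le_jacobson _)).symm
  have h0 : ∃ rs : List R, rs.length = n + 1 ∧ (∀ r ∈ rs, r ∈ maximalIdeal R) ∧
      RingTheory.Sequence.IsRegular (ModuleCat.of R M) rs := ⟨rs, hlen, hmem, hreg⟩
  have h1 := ((ModuleCat.exists_isRegular_tfae (maximalIdeal R) (n + 1) (ModuleCat.of R M)
    hlt).out 3 1).mp h0
  refine ((ModuleCat.exists_isRegular_tfae (maximalIdeal R) n
    (ModuleCat.of R (QuotSMulTop x M)) hlt').out 1 3).mp ?_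
  intro i hi
  have zero1 := AddCommGrpCat.isZero_of_iff_subsingleton.mpr (h1 i (by omega))
  have zero2 := AddCommGrpCat.isZero_of_iff_subsingleton.mpr (h1 (i + 1) (by omega))
  have hse := (IsSMulRegular.smulShortComplex_shortExact (M := ModuleCat.of R M) hxreg)
  exact AddCommGrpCat.subsingleton_of_isZero <| ShortComplex.Exact.isZero_of_both_zeros
    ((Ext.covariant_sequence_exact₃' (ModuleCat.of R (Shrink.{u} (R ⧸ maximalIdeal R)))
      hse) i (i + 1) rfl)
    (zero1.eq_zero_of_src _) (zero2.eq_zero_of_tgt _)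

/-- **Maximal Cohen–Macaulay modules over regular local rings are free.** -/
theorem free_of_isRegular (n : ℕ) : ∀ (R : Type u) [CommRing R] [IsLocalRing R]
    [IsNoetherianRing R] (v : Fin n → R) (_ : maximalIdeal R = Ideal.span (Set.range v))
    (M : Type u) [AddCommGroup M] [Module R M] [Module.Finite R M]
    (rs : List R) (_ : rs.length = n) (_ : ∀ r ∈ rs, r ∈ maximalIdeal R)
    (_ : IsRegular M rs), Module.Free R M := by
  induction n with
  | zero =>
    intro R _ _ _ v hv M _ _ _ rs _ _ _
    have hbot : maximalIdeal R = ⊥ := by rw [hv]; simp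
    letI : Field R := (IsLocalRing.isField_iff_maximalIdeal_eq.mpr hbot).toField
    exact Module.Free.of_divisionRing R M
  | succ n ih =>
    intro R _ _ _ v hv M _ _ _ rs hlen hmem hreg
    haveI : Nontrivial M := hreg.nontrivial
    obtain ⟨r, rs', rfl⟩ : ∃ r rs', rs = r :: rs' := by
      cases rs with
      | nil => simp at hlen
      | cons r rs' => exact ⟨r, rs', rfl⟩
    have hr : r ∈ maximalIdeal R := hmem r (by simp)
    have hrreg : IsSMulRegular M r := ((isRegular_cons_iff M r rs').mp hreg).1
    obtain ⟨x, hx, hx2, hxreg⟩ := exists_mem_notMem_sq_isSMulRegular hr hrreg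
    obtain ⟨ts, htlen, htmem, htreg⟩ := exists_regular_quotSMulTop _ hlen hmem hreg hx hxreg
    have hne : Ideal.span {x} ≠ ⊤ := fun h => by
      have : Ideal.span {x} ≤ maximalIdeal R := (Ideal.span_singleton_le_iff_mem _).mpr hx
      rw [h] at this
      exact (maximalIdeal.isMaximal R).ne_top (top_le_iff.mp this)
    haveI : Nontrivial (R ⧸ Ideal.span {x}) := Ideal.Quotient.nontrivial_iff.mpr hne
    haveI : IsLocalRing (R ⧸ Ideal.span {x}) :=
      IsLocalRing.of_surjective' _ Ideal.Quotient.mk_surjective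
    obtain ⟨w, hw⟩ := exists_generators_quotient v hv hx hx2
    haveI : Module.Finite (R ⧸ Ideal.span {x}) (QuotSMulTop x M) :=
      Module.Finite.of_restrictScalars_finite R (R ⧸ Ideal.span {x}) (QuotSMulTop x M)
    haveI := nontrivial_quotSMulTop_of_mem_maximalIdeal (L := M) hx
    have hfree : Module.Free (R ⧸ Ideal.span {x}) (QuotSMulTop x M) := by
      refine ih (R ⧸ Ideal.span {x}) w hw (QuotSMulTop x M)
        (ts.map (algebraMap R (R ⧸ Ideal.span {x}))) (by simpa using htlen) ?_ ?_
      · intro y hy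
        obtain ⟨t, ht, rfl⟩ := List.mem_map.mp hy
        have := htmem t ht
        rw [mem_maximalIdeal, mem_nonunits_iff] at this ⊢
        intro hu
        apply this
        haveI : IsLocalHom (Ideal.Quotient.mk (Ideal.span {x})) :=
          IsLocalHom.of_surjective _ Ideal.Quotient.mk_surjective
        exact (isUnit_map_iff (Ideal.Quotient.mk (Ideal.span {x})) t).mp hu
      · apply IsRegular.of_isWeaklyRegular_of_mem_maximalIdeal
        · intro y hy
          obtain ⟨t, ht, rfl⟩ := List.mem_map.mp hy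
          have := htmem t ht
          rw [mem_maximalIdeal, mem_nonunits_iff] at this ⊢
          intro hu
          apply this
          haveI : IsLocalHom (Ideal.Quotient.mk (Ideal.span {x})) :=
            IsLocalHom.of_surjective _ Ideal.Quotient.mk_surjective
          exact (isUnit_map_iff (Ideal.Quotient.mk (Ideal.span {x})) t).mp hu
        · exact (isWeaklyRegular_map_algebraMap_iff (R ⧸ Ideal.span {x}) (QuotSMulTop x M) ts).mpr
            htreg.toIsWeaklyRegular
    haveI : Module.FinitePresentation R M := Module.finitePresentation_of_finite R M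
    exact (Module.free_quotSMulTop_iff_free R M
      (maximalIdeal_le_jacobson _ hx) hxreg).mp hfree

end Fermat.Agent.Patching
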